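import Mathlib.MeasureTheory.MeasurableSpace.Invariants
import Mathlib.MeasureTheory.Function.ConditionalExpectation.Basic
import Mathlib.MeasureTheory.Integral.DominatedConvergence
import Mathlib.Dynamics.Ergodic.Function
import Mathlib.Dynamics.BirkhoffSum.Average
import Mathlib.Dynamics.BirkhoffSum.QuasiMeasurePreserving
import Mathlib.Tactic

/-!
# The pointwise ergodic theorem

With `g = f - E [f | invariant sets] - ε` the partial maxima `M n` of the sums satisfy
`M (n + 1) - M n ∘ T → g` on the invariant set where they are unbounded; integrating, that set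
is null, whence the upper bound for the averages.
-/

set_option autoImplicit false

noncomputable section

open MeasureTheory Filter Topology MeasurableSpace

namespace FA.PointwiseErgodic

variable {α : Type*} {m₀ : MeasurableSpace α} {μ : Measure α} {T : α → α}

/-- The maxima of the sums, `M (n + 1) = max 0 (g + M n ∘ T)`. -/
def maxSum (T : α → α) (g : α → ℝ) : ℕ → α → ℝ
  | 0 => fun _ => 0
  | n + 1 => fun x => max 0 (g x + maxSum T g n (T x))

theorem maxSum_nonneg (T : α → α) (g : α → ℝ) : ∀ n x, 0 ≤ maxSum T g n x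
  | 0, _ => le_rfl
  | _ + 1, _ => le_max_left _ _

theorem maxSum_le_succ (T : α → α) (g : α → ℝ) : ∀ n x, maxSum T g n x ≤ maxSum T g (n + 1) x
  | 0, _ => le_max_left _ _
  | n + 1, x => max_le_max le_rfl (add_le_add le_rfl (maxSum_le_succ T g n (T x)))

theorem birkhoffSum_le_maxSum (T : α → α) (g : α → ℝ) :
    ∀ n x, birkhoffSum T g n x ≤ maxSum T g n x
  | 0, x => by simp [maxSum]
  | n + 1, x => by
    rw [birkhoffSum_succ']
    exact le_max_of_le_right (add_le_add le_rfl (birkhoffSum_le_maxSum T g n (T x)))

theorem measurable_maxSum (hT : Measurable T) {g : α → ℝ} (hg : Measurable g) :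
    ∀ n, Measurable (maxSum T g n)
  | 0 => measurable_const
  | n + 1 => measurable_const.max (hg.add ((measurable_maxSum hT hg n).comp hT))

theorem integrable_maxSum [IsFiniteMeasure μ] (hT : MeasurePreserving T μ μ) {g : α → ℝ}
    (hg : Integrable g μ) : ∀ n, Integrable (maxSum T g n) μ
  | 0 => integrable_const _
  | n + 1 => (integrable_const (0 : ℝ)).sup
      (hg.add (hT.integrable_comp_of_integrable (integrable_maxSum hT hg n)))

/-- Where the sums are unbounded. -/
def escapeSet (T : α → α) (g : α → ℝ) : Set α := {x | ∀ C : ℕ, ∃ n, (C : ℝ) < maxSum T g n x}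

theorem measurableSet_escapeSet (hT : Measurable T) {g : α → ℝ} (hg : Measurable g) :
    MeasurableSet (escapeSet T g) := by
  have : escapeSet T g = ⋂ C : ℕ, ⋃ n, {x | (C : ℝ) < maxSum T g n x} := by
    ext x
    simp [escapeSet]
  rw [this]
  exact MeasurableSet.iInter fun C => MeasurableSet.iUnion fun n =>
    measurableSet_lt measurable_const (measurable_maxSum hT hg n)

theorem preimage_escapeSet (T : α → α) (g : α → ℝ) : T ⁻¹' escapeSet T g = escapeSet T g := by
  ext x
  constructor
  · intro h C
    obtain ⟨D, hD⟩ := exists_nat_ge ((C : ℝ) - g x)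
    obtain ⟨n, hn⟩ := h D
    exact ⟨n + 1, lt_max_of_lt_right (by linarith)⟩
  · intro h C
    obtain ⟨D, hD⟩ := exists_nat_ge ((C : ℝ) + g x)
    obtain ⟨n, hn⟩ := h (max D 0)
    rw [Nat.max_eq_left (Nat.zero_le _)] at hn
    rcases n with _ | n
    · exact absurd hn (not_lt.2 (Nat.cast_nonneg D))
    · refine ⟨n, ?_⟩
      rcases lt_max_iff.1 hn with h0 | h0
      · exact absurd h0 (not_lt.2 (Nat.cast_nonneg D))
      · linarith

theorem tendsto_maxSum {T : α → α} {g : α → ℝ} {x : α} (h : x ∈ escapeSet T g) :
    Tendsto (fun n => maxSum T g n x) atTop atTop := by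
  refine tendsto_atTop_atTop_of_monotone (monotone_nat_of_le_succ fun n => maxSum_le_succ T g n x)
    fun C => ?_
  obtain ⟨D, hD⟩ := exists_nat_ge C
  obtain ⟨n, hn⟩ := h D
  exact ⟨n, hD.trans hn.le⟩

/-- The integral of `g` over the invariant set of unbounded sums is not negative. -/
theorem setIntegral_nonneg_escape [IsFiniteMeasure μ] (hT : MeasurePreserving T μ μ)
    {g : α → ℝ} (hgm : Measurable g) (hg : Integrable g μ) :
    0 ≤ ∫ x in escapeSet T g, g x ∂μ := by
  set A := escapeSet T g
  have hA : MeasurableSet A := measurableSet_escapeSet hT.measurable hgm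
  have hM := integrable_maxSum hT hg
  have hcomp : ∀ n, ∫ x in A, maxSum T g n (T x) ∂μ = ∫ x in A, maxSum T g n x ∂μ := fun n => by
    rw [← integral_indicator hA, ← integral_indicator hA]
    conv_rhs => rw [← hT.map_eq]
    rw [integral_map hT.measurable.aemeasurable
      ((measurable_maxSum hT.measurable hgm n).indicator hA).aestronglyMeasurable]
    refine integral_congr_ae (Eventually.of_forall fun x => ?_)
    have : T x ∈ A ↔ x ∈ A := Set.ext_iff.1 (preimage_escapeSet T g) x
    by_cases hx : x ∈ A <;> simp [hx, this]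
  have hpos : ∀ n, 0 ≤ ∫ x in A, (maxSum T g (n + 1) x - maxSum T g n (T x)) ∂μ := fun n => by
    have hI : Integrable (fun x => maxSum T g n (T x)) μ := hT.integrable_comp_of_integrable (hM n)
    rw [integral_sub (hM _).integrableOn hI.integrableOn, hcomp, sub_nonneg]
    exact integral_mono (hM n).integrableOn (hM _).integrableOn fun x => maxSum_le_succ T g n x
  have hlim : Tendsto (fun n => ∫ x in A, (maxSum T g (n + 1) x - maxSum T g n (T x)) ∂μ) atTop
      (𝓝 (∫ x in A, g x ∂μ)) := by
    refine tendsto_integral_of_dominated_convergence (fun x => |g x|)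
      (fun n => ((measurable_maxSum hT.measurable hgm (n + 1)).sub
        ((measurable_maxSum hT.measurable hgm n).comp hT.measurable)).aestronglyMeasurable)
      hg.abs.integrableOn (fun n => Eventually.of_forall fun x => ?_) ?_
    · have h0 := maxSum_nonneg T g n (T x)
      rw [Real.norm_eq_abs, maxSum, abs_le]
      rcases max_cases 0 (g x + maxSum T g n (T x)) with ⟨h1, h2⟩ | ⟨h1, h2⟩ <;>
        constructor <;> linarith [le_abs_self (g x), neg_abs_le (g x)]
    · refine (ae_restrict_mem hA).mono fun x hx => ?_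
      have hTx : T x ∈ A := (Set.ext_iff.1 (preimage_escapeSet T g) x).2 hx
      refine tendsto_const_nhds.congr' ?_
      filter_upwards [(tendsto_maxSum hTx).eventually_ge_atTop (-g x)] with n hn
      simp only [maxSum]
      rw [max_eq_right (by linarith), add_sub_cancel_right]
  exact ge_of_tendsto' hlim hpos

theorem condExp_comp_eq (T : α → α) (f : α → ℝ) :
    μ[f | invariants T] ∘ T = μ[f | invariants T] :=
  comp_eq_of_measurable_invariants stronglyMeasurable_condExp.measurable

/-- The upper bound for the averages. -/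
theorem bddAbove_sums [IsFiniteMeasure μ] (hT : MeasurePreserving T μ μ) {f : α → ℝ}
    (hfm : Measurable f) (hf : Integrable f μ) {ε : ℝ} (hε : 0 < ε) :
    ∀ᵐ x ∂μ, ∃ C : ℝ, ∀ n : ℕ, birkhoffSum T f n x - n * (μ[f | invariants T] x + ε) ≤ C := by
  set e := μ[f | invariants T] with he
  have hem : Measurable e := stronglyMeasurable_condExp.measurable.mono (invariants_le T) le_rfl
  let g : α → ℝ := fun x => f x - (e x + ε)
  have hgm : Measurable g := hfm.sub (hem.add measurable_const)
  have hg : Integrable g μ := hf.sub (integrable_condExp.add (integrable_const ε))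
  have h := setIntegral_nonneg_escape hT hgm hg
  have hinv : MeasurableSet[invariants T] (escapeSet T g) :=
    ⟨measurableSet_escapeSet hT.measurable hgm, preimage_escapeSet T g⟩
  have hnull : μ (escapeSet T g) = 0 := by
    have hcalc : ∫ x in escapeSet T g, g x ∂μ = -(ε * μ.real (escapeSet T g)) := by
      have hIe : Integrable e μ := integrable_condExp
      have hI : Integrable (fun x => e x + ε) μ := hIe.add (integrable_const ε)
      simp only [g]
      rw [integral_sub hf.integrableOn hI.integrableOn,
        integral_add hIe.integrableOn (integrable_const ε).integrableOn, he,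
        setIntegral_condExp (invariants_le T) hf hinv, setIntegral_const, smul_eq_mul]
      ring
    rw [hcalc] at h
    have h0 : μ.real (escapeSet T g) = 0 :=
      le_antisymm (nonpos_of_mul_nonpos_right (by linarith) hε) measureReal_nonneg
    exact (measureReal_eq_zero_iff).1 h0
  filter_upwards [measure_eq_zero_iff_ae_notMem.1 hnull] with x hx
  simp only [escapeSet, Set.mem_ofPred_eq, not_forall, not_exists, not_lt] at hx
  obtain ⟨C, hC⟩ := hx
  refine ⟨C, fun n => le_trans ?_ ((birkhoffSum_le_maxSum T g n x).trans (hC n))⟩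
  have hs := congrFun (birkhoffSum_of_comp_eq (condExp_comp_eq (μ := μ) T f) n) x
  simp only [birkhoffSum, g, Finset.sum_sub_distrib, Finset.sum_add_distrib, Finset.sum_const,
    Finset.card_range, nsmul_eq_mul, ← he, Pi.smul_apply] at hs ⊢
  rw [hs]
  exact le_of_eq (by ring)

theorem eventually_average_le [IsFiniteMeasure μ] (hT : MeasurePreserving T μ μ) {f : α → ℝ}
    (hfm : Measurable f) (hf : Integrable f μ) :
    ∀ᵐ x ∂μ, ∀ ε > 0, ∀ᶠ n in atTop, birkhoffAverage ℝ T f n x ≤ μ[f | invariants T] x + ε := by
  have h := ae_all_iff.2 fun j : ℕ =>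
    bddAbove_sums hT hfm hf (ε := 1 / ((j : ℝ) + 1)) (by positivity)
  filter_upwards [h] with x hx ε hε
  obtain ⟨j, hj⟩ := exists_nat_one_div_lt (half_pos hε)
  obtain ⟨C, hC⟩ := hx j
  obtain ⟨N, hN⟩ := exists_nat_gt (2 * C / ε)
  filter_upwards [eventually_ge_atTop (max N 1)] with n hn
  have hn0 : (0 : ℝ) < n := Nat.cast_pos.2 (by omega)
  have hnN : (N : ℝ) ≤ n := Nat.cast_le.2 (le_of_max_le_left hn)
  rw [div_lt_iff₀ hε] at hN
  have := hC n
  rw [birkhoffAverage, smul_eq_mul, inv_mul_le_iff₀ hn0]
  nlinarith [mul_le_mul_of_nonneg_left hj.le hn0.le]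

theorem tendsto_average_measurable [IsFiniteMeasure μ] (hT : MeasurePreserving T μ μ) {f : α → ℝ}
    (hfm : Measurable f) (hf : Integrable f μ) :
    ∀ᵐ x ∂μ, Tendsto (fun n => birkhoffAverage ℝ T f n x) atTop
      (𝓝 (μ[f | invariants T] x)) := by
  filter_upwards [eventually_average_le hT hfm hf, eventually_average_le hT hfm.neg hf.neg,
    condExp_neg f (invariants T)] with x hx hx' hneg
  rw [tendsto_order]
  refine ⟨fun a ha => ?_, fun a ha => ?_⟩
  · filter_upwards [hx' ((μ[f | invariants T] x - a) / 2) (by linarith)] with n hn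
    simp only [birkhoffAverage_neg, hneg, Pi.neg_apply] at hn
    linarith
  · filter_upwards [hx ((a - μ[f | invariants T] x) / 2) (by linarith)] with n hn
    linarith

/-- **Birkhoff's ergodic theorem.** -/
theorem tendsto_average [IsFiniteMeasure μ] (hT : MeasurePreserving T μ μ) {f : α → ℝ}
    (hf : Integrable f μ) :
    ∀ᵐ x ∂μ, Tendsto (fun n => birkhoffAverage ℝ T f n x) atTop
      (𝓝 (μ[f | invariants T] x)) := by
  obtain ⟨f', hf'm, hff'⟩ := hf.aestronglyMeasurable
  have h := ae_all_iff.2 fun n =>
    hT.quasiMeasurePreserving.birkhoffAverage_ae_eq_of_ae_eq ℝ hff' n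
  filter_upwards [tendsto_average_measurable hT hf'm.measurable (hf.congr hff'), h,
    condExp_congr_ae (m := invariants T) hff'] with x hx heq hc
  rw [hc]
  exact hx.congr fun n => (heq n).symm

/-- **The ergodic case.** -/
theorem tendsto_average_ergodic [IsProbabilityMeasure μ] (hT : Ergodic T μ) {f : α → ℝ}
    (hf : Integrable f μ) :
    ∀ᵐ x ∂μ, Tendsto (fun n => birkhoffAverage ℝ T f n x) atTop (𝓝 (∫ y, f y ∂μ)) := by
  obtain ⟨c, hc⟩ := hT.ae_eq_const_of_ae_eq_comp_ae
    integrable_condExp.aestronglyMeasurable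
    (EventuallyEq.of_eq (condExp_comp_eq (μ := μ) T f))
  have hcv : ∫ y, f y ∂μ = c := by
    rw [← integral_condExp (invariants_le T) (f := f), integral_congr_ae hc]
    simp
  filter_upwards [tendsto_average hT.toMeasurePreserving hf, hc] with x hx hx'
  rw [hcv]
  rwa [hx'] at hx

end FA.PointwiseErgodic

end
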