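import Fermat.Agent.PointwiseErgodic.GaussMap
import Fermat.Agent.PeriodicFractions.Serret
import Mathlib.MeasureTheory.Function.JacobianOneDim
import Mathlib.Dynamics.Ergodic.Ergodic

/-!
# Ergodicity of the Gauss map

The inverse branches are `t ↦ (p + p' t) / (q + q' t)` in the continuants, with derivative of size
`1 / q ^ 2` up to the factor `4`. So an invariant set of positive measure takes a fixed proportion
of every cylinder, and the cylinders exhaust every open set; hence the complement is null.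
-/

set_option autoImplicit false

noncomputable section

open MeasureTheory Filter Topology Set
open FA.PeriodicFractions

namespace FA.PointwiseErgodic

/-- The irrational points of `(0, 1)`. -/
def unitIrr : Set ℝ := {x | x ∈ Ioo (0 : ℝ) 1 ∧ Irrational x}

theorem countable_not_irrational : {x : ℝ | ¬Irrational x}.Countable :=
  (countable_range ((↑) : ℚ → ℝ)).mono fun _ hx => not_not.1 hx

theorem measurableSet_unitIrr : MeasurableSet unitIrr :=
  measurableSet_Ioo.inter (countable_range ((↑) : ℚ → ℝ)).measurableSet.compl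

theorem unitIrr_ae : unitIrr =ᵐ[volume] Ioo (0 : ℝ) 1 := by
  filter_upwards [countable_not_irrational.ae_notMem volume] with x hx
  exact propext ⟨fun h => h.1, fun h => ⟨h, not_not.1 hx⟩⟩

theorem volume_inter_unitIrr (A : Set ℝ) :
    volume (A ∩ unitIrr) = volume (A ∩ Ioo 0 1) :=
  measure_congr (EventuallyEq.inter EventuallyEq.rfl unitIrr_ae)

theorem iterate_gaussMap {y : ℝ} (hy : y ∈ unitIrr) :
    ∀ n, gaussMap^[n] y = Int.fract (cq y n) := fun n => by
  induction n with
  | zero => exact (Int.fract_eq_self.2 ⟨hy.1.1.le, hy.1.2⟩).symm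
  | succ n ih => rw [Function.iterate_succ_apply', ih, gaussMap, cq]

theorem iterate_mem_unitIrr {y : ℝ} (hy : y ∈ unitIrr) (n : ℕ) : gaussMap^[n] y ∈ unitIrr := by
  rw [iterate_gaussMap hy]
  exact ⟨⟨fract_cq_pos hy.2 n, Int.fract_lt_one _⟩,
    (irrational_cq hy.2 n).sub_intCast ⌊cq y n⌋⟩

theorem cq_succ_eq {y : ℝ} (hy : y ∈ unitIrr) (n : ℕ) :
    cq y (n + 1) = (gaussMap^[n] y)⁻¹ := by
  rw [iterate_gaussMap hy, cq]

theorem digit_unitIrr_zero {y : ℝ} (hy : y ∈ unitIrr) : digit y 0 = 0 :=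
  Int.floor_eq_zero_iff.2 ⟨hy.1.1.le, hy.1.2⟩

/-- The points with the same first digits. -/
def gaussCylinder (x : ℝ) (n : ℕ) : Set ℝ :=
  {y | y ∈ unitIrr ∧ ∀ j ≤ n, digit y j = digit x j}

theorem contin_congr {x y : ℝ} : ∀ n, (∀ j < n, digit y j = digit x j) →
    contin y n = contin x n
  | 0, _ => rfl
  | n + 1, h => by
    rw [contin, contin, contin_congr n fun j hj => h j (by omega), h n (Nat.lt_succ_self n)]

/-- The inverse branch. -/
def branch (x : ℝ) (n : ℕ) (t : ℝ) : ℝ :=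
  (((contin x (n + 1)).1 : ℝ) + (contin x (n + 1)).2.1 * t) /
    (((contin x (n + 1)).2.2.1 : ℝ) + (contin x (n + 1)).2.2.2 * t)

theorem den_bounds {x : ℝ} (hx : Irrational x) (n : ℕ) :
    0 < (contin x (n + 1)).2.2.1 ∧ 0 ≤ (contin x (n + 1)).2.2.2 ∧
      (contin x (n + 1)).2.2.2 ≤ (contin x (n + 1)).2.2.1 := by
  obtain ⟨p, p', q, q', he, -, -, h0, h1⟩ := contin_spec hx (n + 1)
  obtain ⟨h2, h3⟩ := h1.resolve_left n.succ_ne_zero
  rw [he]
  exact ⟨h2, h0, h3⟩

theorem branch_iterate {x y : ℝ} {n : ℕ} (hy : y ∈ gaussCylinder x n) :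
    branch x n (gaussMap^[n] y) = y := by
  obtain ⟨hy', hdig⟩ := hy
  obtain ⟨p, p', q, q', he, hrel, -, hq', hq⟩ := contin_spec hy'.2 (n + 1)
  obtain ⟨hq0, -⟩ := hq.resolve_left n.succ_ne_zero
  rw [branch, ← contin_congr (n + 1) fun j hj => hdig j (by omega), he]
  rw [cq_succ_eq hy'] at hrel
  have ht := (iterate_mem_unitIrr hy' n).1.1
  have hq0' : (0 : ℝ) < q := by exact_mod_cast hq0
  have hq1 : (0 : ℝ) ≤ q' := by exact_mod_cast hq'
  simp only
  rw [div_eq_iff (by positivity)]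
  field_simp at hrel
  linear_combination -hrel

theorem branch_mem {x : ℝ} (hx : x ∈ unitIrr) : ∀ n {t : ℝ}, t ∈ unitIrr →
    branch x n t ∈ gaussCylinder x n ∧ gaussMap^[n] (branch x n t) = t := by
  intro n
  induction n with
  | zero =>
    intro t ht
    have hb : branch x 0 t = t := by
      simp [branch, contin, digit_unitIrr_zero hx]
    rw [hb]
    refine ⟨⟨ht, fun j hj => ?_⟩, rfl⟩
    rw [Nat.le_zero.1 hj, digit_unitIrr_zero ht, digit_unitIrr_zero hx]
  | succ n ih =>
    intro t ht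
    have ha : 1 ≤ digit x (n + 1) := one_le_digit hx.2 n
    have ha' : (1 : ℝ) ≤ digit x (n + 1) := by exact_mod_cast ha
    have hpos : 0 < (digit x (n + 1) : ℝ) + t := by linarith [ht.1.1]
    have ht' : ((digit x (n + 1) : ℝ) + t)⁻¹ ∈ unitIrr :=
      ⟨⟨inv_pos.2 hpos, inv_lt_one_of_one_lt₀ (by linarith [ht.1.1])⟩,
        (ht.2.intCast_add _).inv⟩
    obtain ⟨⟨hmem, hdig⟩, hit⟩ := ih ht'
    have hb : branch x (n + 1) t = branch x n ((digit x (n + 1) : ℝ) + t)⁻¹ := by
      obtain ⟨hq0, hq', -⟩ := den_bounds hx.2 n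
      have h0 : (0 : ℝ) < (contin x (n + 1)).2.2.1 := by exact_mod_cast hq0
      have h1 : (0 : ℝ) ≤ (contin x (n + 1)).2.2.2 := by exact_mod_cast hq'
      have hA : ((contin x (n + 1)).2.2.1 : ℝ) * digit x (n + 1) + (contin x (n + 1)).2.2.2 +
          (contin x (n + 1)).2.2.1 * t ≠ 0 := by
        have : 0 < ((contin x (n + 1)).2.2.1 : ℝ) * ((digit x (n + 1) : ℝ) + t) := mul_pos h0 hpos
        linarith
      have hs : ((digit x (n + 1) : ℝ) + t) * ((digit x (n + 1) : ℝ) + t)⁻¹ = 1 :=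
        mul_inv_cancel₀ hpos.ne'
      have hB : ((contin x (n + 1)).2.2.1 : ℝ) +
          (contin x (n + 1)).2.2.2 * ((digit x (n + 1) : ℝ) + t)⁻¹ ≠ 0 := by
        have : 0 ≤ ((contin x (n + 1)).2.2.2 : ℝ) * ((digit x (n + 1) : ℝ) + t)⁻¹ :=
          mul_nonneg h1 (inv_pos.2 hpos).le
        linarith
      rw [branch, branch, contin.eq_def x (n + 1 + 1)]
      simp only
      push_cast
      rw [div_eq_div_iff hA hB]
      linear_combination (((contin x (n + 1)).1 : ℝ) * (contin x (n + 1)).2.2.2 -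
        ((contin x (n + 1)).2.1 : ℝ) * (contin x (n + 1)).2.2.1) * hs
    rw [hb]
    have hstep : gaussMap^[n + 1] (branch x n ((digit x (n + 1) : ℝ) + t)⁻¹) = t := by
      rw [Function.iterate_succ_apply', hit, gaussMap, inv_inv, Int.fract_intCast_add,
        Int.fract_eq_self.2 ⟨ht.1.1.le, ht.1.2⟩]
    refine ⟨⟨hmem, fun j hj => ?_⟩, hstep⟩
    rcases Nat.lt_or_ge j (n + 1) with h | h
    · exact hdig j (by omega)
    · obtain rfl : j = n + 1 := by omega
      rw [digit, cq_succ_eq hmem, hit, inv_inv, Int.floor_intCast_add,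
        Int.floor_eq_zero_iff.2 ⟨ht.1.1.le, ht.1.2⟩, add_zero]

theorem preimage_iterate_eq {A : Set ℝ} (hA : gaussMap ⁻¹' A = A) (y : ℝ) :
    ∀ n, gaussMap^[n] y ∈ A ↔ y ∈ A := fun n => by
  induction n with
  | zero => rfl
  | succ n ih =>
    rw [Function.iterate_succ_apply']
    exact (Set.ext_iff.1 hA _).trans ih

theorem image_branch {x : ℝ} (hx : x ∈ unitIrr) (n : ℕ) {A : Set ℝ}
    (hA : gaussMap ⁻¹' A = A) :
    branch x n '' (A ∩ unitIrr) = gaussCylinder x n ∩ A := by
  ext y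
  constructor
  · rintro ⟨t, ⟨htA, ht⟩, rfl⟩
    obtain ⟨h1, h2⟩ := branch_mem hx n ht
    exact ⟨h1, (preimage_iterate_eq hA _ n).1 (h2.symm ▸ htA)⟩
  · rintro ⟨hy, hyA⟩
    exact ⟨gaussMap^[n] y, ⟨(preimage_iterate_eq hA y n).2 hyA, iterate_mem_unitIrr hy.1 n⟩,
      branch_iterate hy⟩

theorem hasDerivAt_branch {x : ℝ} (hx : Irrational x) (n : ℕ) {t : ℝ} (ht : 0 ≤ t) :
    ∃ d, HasDerivAt (branch x n) d t ∧
      |d| = 1 / (((contin x (n + 1)).2.2.1 : ℝ) + (contin x (n + 1)).2.2.2 * t) ^ 2 := by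
  obtain ⟨p, p', q, q', he, -, hdet, hq', hq⟩ := contin_spec hx (n + 1)
  obtain ⟨hq0, -⟩ := hq.resolve_left n.succ_ne_zero
  have h0 : (0 : ℝ) < q := by exact_mod_cast hq0
  have h1 : (0 : ℝ) ≤ q' := by exact_mod_cast hq'
  have hden : (0 : ℝ) < (q : ℝ) + q' * t := by positivity
  refine ⟨((p' : ℝ) * (q + q' * t) - (p + p' * t) * q') / ((q : ℝ) + q' * t) ^ 2, ?_, ?_⟩
  · have hb : branch x n = fun s => ((p : ℝ) + p' * s) / ((q : ℝ) + q' * s) := by
      funext s
      rw [branch, he]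
    have hn : HasDerivAt (fun s => (p : ℝ) + p' * s) (p' : ℝ) t := by
      simpa using ((hasDerivAt_id t).const_mul (p' : ℝ)).const_add (p : ℝ)
    have hd : HasDerivAt (fun s => (q : ℝ) + q' * s) (q' : ℝ) t := by
      simpa using ((hasDerivAt_id t).const_mul (q' : ℝ)).const_add (q : ℝ)
    rw [hb]
    exact hn.div hd hden.ne'
  · rw [he]
    simp only
    rw [abs_div, abs_of_pos (by positivity : (0 : ℝ) < ((q : ℝ) + q' * t) ^ 2),
      show (p' : ℝ) * (q + q' * t) - (p + p' * t) * q' = -(((p * q' - p' * q : ℤ) : ℝ)) by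
        push_cast; ring, abs_neg, ← Int.cast_abs, hdet, Int.cast_one]

/-- An invariant set takes a fixed share of every cylinder. -/
theorem volume_cylinder_inter {x : ℝ} (hx : x ∈ unitIrr) (n : ℕ) {A : Set ℝ}
    (hAm : MeasurableSet A) (hA : gaussMap ⁻¹' A = A) :
    ENNReal.ofReal (1 / 4) * volume (A ∩ unitIrr) * volume (gaussCylinder x n) ≤
      volume (gaussCylinder x n ∩ A) := by
  obtain ⟨q, hq⟩ : ∃ q : ℝ, q = ((contin x (n + 1)).2.2.1 : ℝ) := ⟨_, rfl⟩
  obtain ⟨q', hq'⟩ : ∃ q' : ℝ, q' = ((contin x (n + 1)).2.2.2 : ℝ) := ⟨_, rfl⟩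
  obtain ⟨b0, b1, b2⟩ := den_bounds hx.2 n
  have h0 : 0 < q := by rw [hq]; exact_mod_cast b0
  have h1 : 0 ≤ q' := by rw [hq']; exact_mod_cast b1
  have h2 : q' ≤ q := by rw [hq, hq']; exact_mod_cast b2
  have hd : ∀ t ∈ unitIrr, HasDerivWithinAt (branch x n) (deriv (branch x n) t) unitIrr t ∧
      |deriv (branch x n) t| = 1 / (q + q' * t) ^ 2 := fun t ht => by
    obtain ⟨d, hd, hd'⟩ := hasDerivAt_branch hx.2 n ht.1.1.le
    rw [hd.deriv, hq, hq']
    exact ⟨hd.hasDerivWithinAt, hd'⟩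
  have vol : ∀ {B : Set ℝ}, MeasurableSet B → gaussMap ⁻¹' B = B →
      volume (gaussCylinder x n ∩ B) =
        ∫⁻ t in B ∩ unitIrr, ENNReal.ofReal (1 / (q + q' * t) ^ 2) := fun {B} hBm hB => by
    rw [← image_branch hx n hB, ← setLIntegral_one,
      lintegral_image_eq_lintegral_abs_deriv_mul (hBm.inter measurableSet_unitIrr)
        (fun t ht => (hd t ht.2).1.mono inter_subset_right)
        (fun s hs t ht h => by
          rw [← (branch_mem hx n hs.2).2, h, (branch_mem hx n ht.2).2]) fun _ => 1]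
    exact setLIntegral_congr_fun (hBm.inter measurableSet_unitIrr) fun t ht => by
      rw [mul_one, (hd t ht.2).2]
  have hup : volume (gaussCylinder x n) ≤ ENNReal.ofReal (1 / q ^ 2) := by
    rw [← Set.inter_univ (gaussCylinder x n), vol MeasurableSet.univ rfl, univ_inter]
    refine (setLIntegral_mono measurable_const fun t ht => ENNReal.ofReal_le_ofReal
      (one_div_le_one_div_of_le (pow_pos h0 2)
        (pow_le_pow_left₀ h0.le (by nlinarith [ht.1.1]) 2))).trans ?_
    rw [setLIntegral_const, measure_congr unitIrr_ae, Real.volume_Ioo, sub_zero,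
      ENNReal.ofReal_one, mul_one]
  have hlo : ENNReal.ofReal (1 / (2 * q) ^ 2) * volume (A ∩ unitIrr) ≤
      volume (gaussCylinder x n ∩ A) := by
    rw [vol hAm hA, ← setLIntegral_const]
    refine setLIntegral_mono' (hAm.inter measurableSet_unitIrr) fun t ht => ?_
    refine ENNReal.ofReal_le_ofReal (one_div_le_one_div_of_le
      (pow_pos (by nlinarith [ht.2.1.1]) 2) (pow_le_pow_left₀ (by nlinarith [ht.2.1.1]) ?_ 2))
    nlinarith [ht.2.1.1, ht.2.1.2]
  refine le_trans ?_ hlo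
  rw [show (1 : ℝ) / (2 * q) ^ 2 = 1 / 4 * (1 / q ^ 2) by field_simp; ring,
    ENNReal.ofReal_mul (by norm_num), mul_right_comm]
  gcongr

theorem exists_cylinder_subset {x : ℝ} (hx : x ∈ unitIrr) {U : Set ℝ} (hU : IsOpen U)
    (hxU : x ∈ U) : ∃ n, gaussCylinder x n ⊆ U := by
  obtain ⟨ε, hε, hball⟩ := Metric.isOpen_iff.1 hU x hxU
  obtain ⟨m, hm⟩ := exists_nat_gt (2 / ε)
  refine ⟨m + 1, fun y hy => hball ?_⟩
  obtain ⟨p, p', q, q', he, -⟩ := contin_spec hx.2 (m + 1 + 1)
  have hgr := (contin_growth hx.2 m he).2.2.2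
  have e1 := (abs_error_le hx.2 he).1
  have e2 := (abs_error_le hy.1.2
    ((contin_congr (m + 1 + 1) fun j hj => hy.2 j (by omega)).trans he)).1
  have hq : (m : ℝ) + 1 ≤ q := by exact_mod_cast hgr
  rw [div_lt_iff₀ hε] at hm
  rw [Metric.mem_ball, Real.dist_eq]
  rw [abs_le] at e1 e2
  rw [abs_lt]
  constructor <;> nlinarith [Nat.cast_nonneg (α := ℝ) m]

/-- The cylinder of a word. -/
def wordCylinder (w : Σ n : ℕ, Fin (n + 1) → ℤ) : Set ℝ :=
  {y | y ∈ unitIrr ∧ ∀ j : Fin (w.1 + 1), digit y j = w.2 j}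

theorem measurableSet_wordCylinder (w : Σ n : ℕ, Fin (n + 1) → ℤ) :
    MeasurableSet (wordCylinder w) := by
  have hcq : ∀ j, Measurable fun y : ℝ => cq y j := fun j => by
    induction j with
    | zero => exact measurable_id
    | succ j ih => exact (measurable_fract.comp ih).inv
  have : wordCylinder w = unitIrr ∩ ⋂ j : Fin (w.1 + 1), (fun y => digit y j) ⁻¹' {w.2 j} := by
    ext y
    simp [wordCylinder]
  rw [this]
  exact measurableSet_unitIrr.inter (MeasurableSet.iInter fun j =>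
    (Int.measurable_floor.comp (hcq j)) (measurableSet_singleton _))

theorem null_of_invariant {A : Set ℝ} (hAm : MeasurableSet A) (hA : gaussMap ⁻¹' A = A)
    (hpos : volume (A ∩ unitIrr) ≠ 0) : volume (Aᶜ ∩ unitIrr) = 0 := by
  classical
  have htop : ∀ S : Set ℝ, volume (S ∩ unitIrr) ≠ ⊤ := fun S =>
    ne_top_of_le_ne_top (by simp [measure_congr unitIrr_ae] : volume unitIrr ≠ ⊤)
      (measure_mono inter_subset_right)
  obtain ⟨c, hc⟩ : ∃ c : ℝ, c = 1 / 4 * volume.real (A ∩ unitIrr) := ⟨_, rfl⟩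
  have hc0 : 0 < c := by
    rw [hc]
    exact mul_pos (by norm_num) (ENNReal.toReal_pos hpos (htop A))
  have hc1 : c ≤ 1 := by
    have : volume.real (A ∩ unitIrr) ≤ volume.real unitIrr :=
      measureReal_mono inter_subset_right (by simp [measure_congr unitIrr_ae])
    rw [measureReal_congr unitIrr_ae, Real.volume_real_Ioo_of_le zero_le_one] at this
    rw [hc]
    linarith
  have key : ∀ x ∈ unitIrr, ∀ n, volume (gaussCylinder x n ∩ Aᶜ) ≤
      ENNReal.ofReal (1 - c) * volume (gaussCylinder x n) := fun x hx n => by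
    have hle := volume_cylinder_inter hx n hAm hA
    have hsub : gaussCylinder x n ⊆ unitIrr := fun y hy => hy.1
    have hfin : volume (gaussCylinder x n) ≠ ⊤ :=
      ne_top_of_le_ne_top (htop univ) (measure_mono fun y hy => ⟨trivial, hsub hy⟩)
    have hsplit := measure_inter_add_sdiff (μ := volume) (gaussCylinder x n) hAm
    rw [sdiff_eq] at hsplit
    have e : ENNReal.ofReal (1 / 4) * volume (A ∩ unitIrr) = ENNReal.ofReal c := by
      rw [hc, ENNReal.ofReal_mul (by norm_num), ofReal_measureReal (htop A)]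
    rw [e] at hle
    have h1 : ENNReal.ofReal c * volume (gaussCylinder x n) +
        ENNReal.ofReal (1 - c) * volume (gaussCylinder x n) = volume (gaussCylinder x n) := by
      rw [← add_mul, ← ENNReal.ofReal_add hc0.le (by linarith), add_sub_cancel, ENNReal.ofReal_one,
        one_mul]
    refine (ENNReal.add_le_add_iff_left (ENNReal.mul_ne_top ENNReal.ofReal_ne_top hfin)
      (a := ENNReal.ofReal c * volume (gaussCylinder x n))).1 ?_
    rw [h1]
    calc ENNReal.ofReal c * volume (gaussCylinder x n) + volume (gaussCylinder x n ∩ Aᶜ)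
        ≤ volume (gaussCylinder x n ∩ A) + volume (gaussCylinder x n ∩ Aᶜ) := by gcongr
      _ = volume (gaussCylinder x n) := hsplit
  have bound : ∀ δ : ℝ, 0 < δ → volume.real (Aᶜ ∩ unitIrr) ≤
      (1 - c) * (volume.real (Aᶜ ∩ unitIrr) + δ) := fun δ hδ => by
    obtain ⟨U, hU1, hU2, hU3⟩ := (Aᶜ ∩ unitIrr).exists_isOpen_lt_add (htop _)
      (ε := ENNReal.ofReal δ) (ENNReal.ofReal_pos.2 hδ).ne'
    let N : ℝ → ℕ := fun x =>
      if h : ∃ n, gaussCylinder x n ⊆ U then Nat.find h else 0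
    let S : Set (Σ n : ℕ, Fin (n + 1) → ℤ) :=
      {w | ∃ x ∈ U ∩ unitIrr, w = ⟨N x, fun j => digit x j⟩}
    have hex : ∀ x ∈ U ∩ unitIrr, ∃ n, gaussCylinder x n ⊆ U := fun x hx =>
      exists_cylinder_subset hx.2 hU2 hx.1
    have hword : ∀ x, wordCylinder ⟨N x, fun j => digit x j⟩ = gaussCylinder x (N x) := fun x => by
      ext y
      exact and_congr_right fun _ => ⟨fun h j hj => h ⟨j, Nat.lt_succ_of_le hj⟩,
        fun h j => h j (Nat.lt_succ_iff.1 j.2)⟩
    have hN : ∀ x ∈ U ∩ unitIrr, gaussCylinder x (N x) ⊆ U := fun x hx => by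
      simp only [N, dif_pos (hex x hx)]
      exact Nat.find_spec (hex x hx)
    have hsame : ∀ x ∈ U ∩ unitIrr, ∀ y ∈ gaussCylinder x (N x), y ∈ U ∩ unitIrr ∧
        (⟨N y, fun j => digit y j⟩ : Σ n : ℕ, Fin (n + 1) → ℤ) = ⟨N x, fun j => digit x j⟩ := by
      intro x hx y hy
      have hyU : y ∈ U ∩ unitIrr := ⟨hN x hx hy, hy.1⟩
      have hcyl : ∀ m ≤ N x, gaussCylinder y m = gaussCylinder x m := fun m hm => by
        ext z
        exact and_congr_right fun _ => forall₂_congr fun j hj => by rw [hy.2 j (hj.trans hm)]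
      have hNy : N y = N x := by
        have h2 : N y ≤ N x := by
          simp only [N, dif_pos (hex y hyU), dif_pos (hex x hx)]
          refine Nat.find_min' _ ?_
          have := hcyl (N x) le_rfl
          simp only [N, dif_pos (hex x hx)] at this
          rw [this]
          exact Nat.find_spec (hex x hx)
        refine le_antisymm h2 ?_
        have h3 : gaussCylinder x (N y) ⊆ U := by
          rw [← hcyl (N y) h2]
          exact hN y hyU
        simp only [N, dif_pos (hex x hx)]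
        exact Nat.find_min' _ (by simpa only [N] using h3)
      refine ⟨hyU, ?_⟩
      refine Sigma.ext hNy (Function.hfunext (by rw [hNy]) fun i j hij => heq_of_eq ?_)
      have hval : (i : ℕ) = j := Fin.val_eq_val_of_heq hij
      simp only
      rw [hval]
      exact hy.2 j (Nat.lt_succ_iff.1 j.2)
    have hcover : U ∩ unitIrr = ⋃ w ∈ S, wordCylinder w := by
      ext y
      simp only [mem_iUnion, exists_prop]
      constructor
      · intro hy
        refine ⟨_, ⟨y, hy, rfl⟩, ?_⟩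
        rw [hword]
        exact ⟨hy.2, fun _ _ => rfl⟩
      · rintro ⟨w, ⟨x, hx, rfl⟩, hy⟩
        rw [hword] at hy
        exact (hsame x hx y hy).1
    have hdisj : S.Pairwise (Function.onFun Disjoint wordCylinder) := by
      rintro _ ⟨x, hx, rfl⟩ _ ⟨z, hz, rfl⟩ hne
      refine Set.disjoint_left.2 fun y hy hy' => hne ?_
      rw [hword] at hy hy'
      rw [← (hsame x hx y hy).2, (hsame z hz y hy').2]
    have hle : volume ((U ∩ unitIrr) ∩ Aᶜ) ≤ ENNReal.ofReal (1 - c) * volume (U ∩ unitIrr) := by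
      rw [hcover, iUnion₂_inter,
        measure_biUnion S.to_countable (hdisj.mono' fun _ _ h => h.mono inter_subset_left
          inter_subset_left) fun w _ => (measurableSet_wordCylinder w).inter hAm.compl,
        measure_biUnion S.to_countable hdisj fun w _ => measurableSet_wordCylinder w,
        ← ENNReal.tsum_mul_left]
      refine ENNReal.tsum_le_tsum fun ⟨w, hw⟩ => ?_
      obtain ⟨x, hx, rfl⟩ := hw
      simp only [hword]
      exact key x hx.2 _
    have hBsub : Aᶜ ∩ unitIrr ⊆ (U ∩ unitIrr) ∩ Aᶜ := fun y hy => ⟨⟨hU1 hy, hy.2⟩, hy.1⟩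
    have hfinal : volume (Aᶜ ∩ unitIrr) ≤
        ENNReal.ofReal (1 - c) * (volume (Aᶜ ∩ unitIrr) + ENNReal.ofReal δ) :=
      ((measure_mono hBsub).trans hle).trans
        (mul_le_mul_right ((measure_mono inter_subset_left).trans hU3.le) _)
    have := ENNReal.toReal_mono (ENNReal.mul_ne_top ENNReal.ofReal_ne_top
      (ENNReal.add_ne_top.2 ⟨htop _, ENNReal.ofReal_ne_top⟩)) hfinal
    rwa [ENNReal.toReal_mul, ENNReal.toReal_add (htop _) ENNReal.ofReal_ne_top,
      ENNReal.toReal_ofReal (by linarith), ENNReal.toReal_ofReal hδ.le] at this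
  have hb0 : volume.real (Aᶜ ∩ unitIrr) = 0 := by
    by_contra hne
    have hb : 0 < volume.real (Aᶜ ∩ unitIrr) := measureReal_nonneg.lt_of_ne (Ne.symm hne)
    have := bound (c * volume.real (Aᶜ ∩ unitIrr)) (mul_pos hc0 hb)
    nlinarith [mul_pos (mul_pos hc0 hc0) hb]
  exact (measureReal_eq_zero_iff (htop _)).1 hb0

/-- **The Gauss map is ergodic.** -/
theorem ergodic_gaussMap : Ergodic gaussMap gaussMeasure := by
  refine ⟨measurePreserving_gaussMap, ⟨fun A hAm hA => ?_⟩⟩
  have hnull : ∀ S : Set ℝ, MeasurableSet S → volume (S ∩ unitIrr) = 0 → gaussMeasure S = 0 :=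
    fun S hS h => gaussMeasure_absolutelyContinuous (by
      rwa [Measure.restrict_apply hS, ← volume_inter_unitIrr])
  rw [eventuallyConst_set']
  by_cases hpos : volume (A ∩ unitIrr) = 0
  · exact Or.inl (ae_eq_empty.2 (hnull A hAm hpos))
  · exact Or.inr (ae_eq_univ.2 (hnull Aᶜ hAm.compl (null_of_invariant hAm hA hpos)))

end FA.PointwiseErgodic

end
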