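import Mathlib.Analysis.SpecialFunctions.Integrals.Basic
import Mathlib.Analysis.SpecialFunctions.Log.Basic
import Mathlib.MeasureTheory.Measure.WithDensity
import Mathlib.MeasureTheory.Integral.IntervalIntegral.FundThmCalculus
import Mathlib.MeasureTheory.Function.Floor
import Mathlib.Dynamics.Ergodic.MeasurePreserving
import Mathlib.Tactic

/-!
# The Gauss map and its invariant measure

`x ↦ fract (1 / x)` preserves `dx / (log 2 (1 + x))` on `(0, 1)`: the preimage of `[0, t]` is the
union of the intervals `[1 / (n + t), 1 / n]`, whose measures telescope.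
-/

set_option autoImplicit false

noncomputable section

open MeasureTheory Filter Topology Set Real

namespace FA.PointwiseErgodic

/-- The Gauss map. -/
def gaussMap (x : ℝ) : ℝ := Int.fract x⁻¹

theorem measurable_gaussMap : Measurable gaussMap :=
  measurable_fract.comp measurable_inv

/-- The density of the Gauss measure. -/
def gaussDensity (x : ℝ) : ℝ := (log 2 * (1 + x))⁻¹

/-- The Gauss measure on `(0, 1)`. -/
def gaussMeasure : Measure ℝ :=
  (volume.restrict (Ioo (0 : ℝ) 1)).withDensity fun x => ENNReal.ofReal (gaussDensity x)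

theorem gaussMeasure_absolutelyContinuous : gaussMeasure ≪ volume.restrict (Ioo (0 : ℝ) 1) :=
  withDensity_absolutelyContinuous _ _

theorem ae_gaussMeasure_mem : ∀ᵐ x ∂gaussMeasure, x ∈ Ioo (0 : ℝ) 1 :=
  gaussMeasure_absolutelyContinuous.ae_le (ae_restrict_mem measurableSet_Ioo)

theorem absolutelyContinuous_gaussMeasure : volume.restrict (Ioo (0 : ℝ) 1) ≪ gaussMeasure := by
  refine withDensity_absolutelyContinuous'
    (by unfold gaussDensity; fun_prop) ?_
  filter_upwards [ae_restrict_mem measurableSet_Ioo] with x hx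
  have := log_pos one_lt_two
  rw [Ne, ENNReal.ofReal_eq_zero, not_le, gaussDensity]
  exact inv_pos.2 (mul_pos this (by linarith [hx.1]))

/-- The measure of an interval. -/
theorem gaussMeasure_Icc {a b : ℝ} (ha : 0 ≤ a) (hab : a ≤ b) (hb : b ≤ 1) :
    gaussMeasure (Icc a b) = ENNReal.ofReal ((log (1 + b) - log (1 + a)) / log 2) := by
  have hl := log_pos one_lt_two
  rw [gaussMeasure, withDensity_apply _ measurableSet_Icc,
    Measure.restrict_restrict measurableSet_Icc]
  have hae : (Icc a b ∩ Ioo (0 : ℝ) 1 : Set ℝ) =ᵐ[volume] Ioc a b := by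
    have h0 : ∀ᵐ x : ℝ, x ≠ 0 := by simp [ae_iff]
    have h1 : ∀ᵐ x : ℝ, x ≠ 1 := by simp [ae_iff]
    have h2 : ∀ᵐ x : ℝ, x ≠ a := by simp [ae_iff]
    filter_upwards [h0, h1, h2] with x x0 x1 x2
    refine propext ⟨fun ⟨h, _⟩ => ⟨h.1.lt_of_ne (Ne.symm x2), h.2⟩, fun h => ⟨⟨h.1.le, h.2⟩, ?_⟩⟩
    exact ⟨ha.trans_lt h.1, (h.2.trans hb).lt_of_ne x1⟩
  have hcont : ContinuousOn gaussDensity (Icc a b) := by
    unfold gaussDensity
    refine ContinuousOn.inv₀ (by fun_prop) fun x hx => ?_
    exact (mul_pos hl (by linarith [hx.1])).ne'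
  have hint : IntegrableOn gaussDensity (Ioc a b) :=
    hcont.integrableOn_Icc.mono_set Ioc_subset_Icc_self
  rw [Measure.restrict_congr_set hae, ← ofReal_integral_eq_lintegral_ofReal hint ?_,
    ← intervalIntegral.integral_of_le hab]
  · congr 1
    rw [intervalIntegral.integral_eq_sub_of_hasDerivAt (f := fun x => log (1 + x) / log 2)
      (fun x hx => ?_) (hcont.mono (uIcc_of_le hab).subset).intervalIntegrable, sub_div]
    rw [uIcc_of_le hab] at hx
    have e : 1 / (1 + x) / log 2 = gaussDensity x := by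
      rw [gaussDensity, div_div, one_div, mul_comm]
    rw [← e]
    exact (((hasDerivAt_id x).const_add 1).log (by simp; linarith [hx.1])).div_const (log 2)
  · filter_upwards [ae_restrict_mem measurableSet_Ioc] with x hx
    exact (inv_pos.2 (mul_pos hl (by linarith [hx.1]))).le

theorem gaussMeasure_univ : gaussMeasure univ = 1 := by
  have : gaussMeasure univ = gaussMeasure (Icc 0 1) := by
    refine measure_congr ?_
    filter_upwards [ae_gaussMeasure_mem] with x hx
    exact propext ⟨fun _ => ⟨hx.1.le, hx.2.le⟩, fun _ => trivial⟩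
  rw [this, gaussMeasure_Icc le_rfl zero_le_one le_rfl]
  norm_num [(log_pos one_lt_two).ne']

instance : IsProbabilityMeasure gaussMeasure := ⟨gaussMeasure_univ⟩

theorem gaussMap_le_iff {x t : ℝ} (hx : x ∈ Ioo (0 : ℝ) 1) (ht0 : 0 ≤ t) :
    gaussMap x ≤ t ↔ x ∈ ⋃ n : ℕ, Icc (1 / ((n : ℝ) + 1 + t)) (1 / ((n : ℝ) + 1)) := by
  have hinv : 1 < x⁻¹ := (one_lt_inv₀ hx.1).2 hx.2
  rw [gaussMap, Int.fract, mem_iUnion]
  constructor
  · intro h
    have hn : 1 ≤ ⌊x⁻¹⌋ := Int.le_floor.2 (by exact_mod_cast hinv.le)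
    obtain ⟨m, hm⟩ := Int.eq_ofNat_of_zero_le (show 0 ≤ ⌊x⁻¹⌋ - 1 by omega)
    have hm' : (⌊x⁻¹⌋ : ℝ) = (m : ℝ) + 1 := by
      exact_mod_cast (by omega : ⌊x⁻¹⌋ = (m : ℤ) + 1)
    rw [hm'] at h
    have hfl := Int.floor_le x⁻¹
    rw [hm'] at hfl
    refine ⟨m, ?_, ?_⟩
    · rw [one_div]
      exact inv_le_of_inv_le₀ hx.1 (by linarith)
    · rw [one_div]
      exact le_inv_of_le_inv₀ (by positivity) hfl
  · rintro ⟨n, h1, h2⟩
    have hlo : (n : ℝ) + 1 ≤ x⁻¹ := by
      rw [le_inv_comm₀ (by positivity) hx.1, ← one_div]; exact h2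
    have hpos : (0 : ℝ) < (n : ℝ) + 1 + t := by linarith [Nat.cast_nonneg (α := ℝ) n]
    have hfl : (n : ℤ) + 1 ≤ ⌊x⁻¹⌋ := Int.le_floor.2 (by push_cast; exact hlo)
    have hfl' : (n : ℝ) + 1 ≤ ⌊x⁻¹⌋ := by exact_mod_cast hfl
    have hhi : x⁻¹ ≤ (n : ℝ) + 1 + t := by
      rw [inv_le_comm₀ hx.1 hpos, ← one_div]; exact h1
    linarith

/-- **The Gauss measure is invariant.** -/
theorem measurePreserving_gaussMap : MeasurePreserving gaussMap gaussMeasure gaussMeasure := by
  refine ⟨measurable_gaussMap, ?_⟩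
  have : IsFiniteMeasure (gaussMeasure.map gaussMap) :=
    Measure.isFiniteMeasure_map gaussMeasure gaussMap
  refine Measure.ext_of_Iic _ _ fun t => ?_
  rw [Measure.map_apply measurable_gaussMap measurableSet_Iic]
  rcases lt_or_ge t 0 with ht | ht
  · have h1 : gaussMeasure (gaussMap ⁻¹' Iic t) = 0 := measure_mono_null
      (fun x hx => absurd ((Int.fract_nonneg x⁻¹).trans hx) ht.not_ge) measure_empty
    have h2 : gaussMeasure (Iic t) = 0 := by
      rw [← measure_empty (μ := gaussMeasure)]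
      refine measure_congr ?_
      filter_upwards [ae_gaussMeasure_mem] with x hx
      exact propext ⟨fun h => absurd (hx.1.le.trans h) ht.not_ge, False.elim⟩
    rw [h1, h2]
  rcases le_or_gt 1 t with ht1 | ht1
  · have h1 : gaussMap ⁻¹' Iic t = univ := eq_univ_of_forall fun x =>
      (Int.fract_lt_one _).le.trans ht1
    have h2 : gaussMeasure (Iic t) = gaussMeasure univ := by
      refine measure_congr ?_
      filter_upwards [ae_gaussMeasure_mem] with x hx
      exact propext ⟨fun _ => trivial, fun _ => hx.2.le.trans ht1⟩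
    rw [h1, h2]
  have hl := log_pos one_lt_two
  have h2 : gaussMeasure (Iic t) = gaussMeasure (Icc 0 t) := by
    refine measure_congr ?_
    filter_upwards [ae_gaussMeasure_mem] with x hx
    exact propext ⟨fun h => ⟨hx.1.le, h⟩, fun h => h.2⟩
  have h1 : gaussMeasure (gaussMap ⁻¹' Iic t) =
      gaussMeasure (⋃ n : ℕ, Icc (1 / ((n : ℝ) + 1 + t)) (1 / ((n : ℝ) + 1))) := by
    refine measure_congr ?_
    filter_upwards [ae_gaussMeasure_mem] with x hx
    exact propext (gaussMap_le_iff hx ht)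
  have hpos : ∀ n : ℕ, (0 : ℝ) < (n : ℝ) + 1 + t := fun n => by
    linarith [Nat.cast_nonneg (α := ℝ) n]
  have hdisj : Pairwise (Function.onFun Disjoint fun n : ℕ =>
      Icc (1 / ((n : ℝ) + 1 + t)) (1 / ((n : ℝ) + 1))) := by
    refine (pairwise_disjoint_on _).2 fun m n hmn => Set.disjoint_left.2 fun x hm hn => ?_
    have h : (m : ℝ) + 1 + t < (n : ℝ) + 1 := by
      have : (m : ℝ) + 1 ≤ n := by exact_mod_cast hmn
      linarith
    exact absurd (hm.1.trans hn.2) (one_div_lt_one_div_of_lt (hpos m) h).not_ge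
  rw [h1, h2, measure_iUnion hdisj fun n => measurableSet_Icc,
    gaussMeasure_Icc le_rfl ht ht1.le]
  obtain ⟨φ, hφ⟩ : ∃ φ : ℕ → ℝ, φ = fun n : ℕ => log (1 + t / ((n : ℝ) + 1)) / log 2 := ⟨_, rfl⟩
  have hterm : ∀ n : ℕ, gaussMeasure (Icc (1 / ((n : ℝ) + 1 + t)) (1 / ((n : ℝ) + 1))) =
      ENNReal.ofReal (φ n - φ (n + 1)) ∧ 0 ≤ φ n - φ (n + 1) := fun n => by
    have hn : (0 : ℝ) < (n : ℝ) + 1 := by positivity
    have hle : 1 / ((n : ℝ) + 1 + t) ≤ 1 / ((n : ℝ) + 1) :=
      one_div_le_one_div_of_le hn (by linarith)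
    have e : φ n - φ (n + 1) =
        (log (1 + 1 / ((n : ℝ) + 1)) - log (1 + 1 / ((n : ℝ) + 1 + t))) / log 2 := by
      rw [hφ]
      simp only
      rw [← sub_div]
      congr 1
      push_cast
      have := hpos n
      rw [one_add_div hn.ne', one_add_div (by positivity), one_add_div hn.ne',
        one_add_div this.ne', log_div (by positivity) (by positivity),
        log_div (by positivity) (by positivity), log_div (by positivity) (by positivity),
        log_div (by positivity) (by positivity)]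
      ring_nf
    refine ⟨by rw [e, gaussMeasure_Icc (one_div_nonneg.2 (hpos n).le) hle
      ((div_le_one hn).2 (by linarith [Nat.cast_nonneg (α := ℝ) n]))], ?_⟩
    rw [e]
    exact div_nonneg (sub_nonneg.2 (log_le_log (by have := hpos n; positivity) (by linarith))) hl.le
  have hlim : Tendsto φ atTop (𝓝 0) := by
    rw [hφ]
    have h0 : Tendsto (fun n : ℕ => t / ((n : ℝ) + 1)) atTop (𝓝 0) := by
      simpa [div_eq_mul_inv] using tendsto_one_div_add_atTop_nhds_zero_nat.const_mul t
    have := ((tendsto_const_nhds.add h0).log (x := (1 : ℝ) + 0) (by norm_num)).div_const (log 2)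
    simpa using this
  have hsum : HasSum (fun n => φ n - φ (n + 1)) (φ 0) := by
    refine (hasSum_iff_tendsto_nat_of_nonneg (fun n => (hterm n).2) _).2 ?_
    simp only [Finset.sum_range_sub']
    simpa using tendsto_const_nhds.sub hlim
  rw [tsum_congr fun n => (hterm n).1, ← ENNReal.ofReal_tsum_of_nonneg (fun n => (hterm n).2)
    hsum.summable, hsum.tsum_eq, hφ]
  norm_num

end FA.PointwiseErgodic

end
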