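import Fermat.Agent.PointwiseErgodic.Birkhoff
import Fermat.Agent.PointwiseErgodic.GaussErgodic
import Mathlib.Analysis.SpecialFunctions.Integrability.Basic
import Mathlib.Analysis.SpecialFunctions.Pow.Real

/-!
# The theorems of Gauss–Kuzmin type and Khinchin's constant

Birkhoff's theorem for the Gauss map, at the indicator of a digit and at the logarithm of the digit.
-/

set_option autoImplicit false

noncomputable section

open MeasureTheory Filter Topology Set Real
open FA.PeriodicFractions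

namespace FA.PointwiseErgodic

/-- The probability of the digit `k + 1`. -/
def gaussProb (k : ℕ) : ℝ :=
  log (1 + 1 / (((k : ℝ) + 1) * ((k : ℝ) + 3))) / log 2

/-- The points with first digit `k + 1`. -/
def digitSet (k : ℕ) : Set ℝ := {x | ⌊x⁻¹⌋ = (k : ℤ) + 1}

theorem measurableSet_digitSet (k : ℕ) : MeasurableSet (digitSet k) :=
  (Int.measurable_floor.comp measurable_inv) (measurableSet_singleton _)

theorem gaussMeasureReal_digitSet (k : ℕ) : gaussMeasure.real (digitSet k) = gaussProb k := by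
  have hl := log_pos one_lt_two
  have hlt : 1 / ((k : ℝ) + 2) ≤ 1 / ((k : ℝ) + 1) := by gcongr; linarith
  have he : digitSet k =ᵐ[gaussMeasure] Icc (1 / ((k : ℝ) + 2)) (1 / ((k : ℝ) + 1)) := by
    have hne : ∀ᵐ x ∂gaussMeasure, x ≠ 1 / ((k : ℝ) + 2) :=
      gaussMeasure_absolutelyContinuous.ae_le (ae_restrict_of_ae (by simp [ae_iff]))
    filter_upwards [ae_gaussMeasure_mem, hne] with x hx hx'
    refine propext ?_
    change ⌊x⁻¹⌋ = (k : ℤ) + 1 ↔ x ∈ Icc _ _
    rw [Int.floor_eq_iff, Set.mem_Icc, one_div, one_div,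
      ← le_inv_comm₀ (by positivity) hx.1, inv_le_comm₀ (by positivity) hx.1]
    push_cast
    refine ⟨fun h => ⟨h.2.le.trans_eq (by ring), h.1⟩, fun h => ⟨h.2, ?_⟩⟩
    rw [show (k : ℝ) + 1 + 1 = (k : ℝ) + 2 by ring]
    refine h.1.lt_of_ne fun e => hx' ?_
    rw [one_div, ← e, inv_inv]
  rw [measureReal_congr he, measureReal_def, gaussMeasure_Icc (by positivity) hlt
    ((div_le_one (by positivity)).2 (by linarith [Nat.cast_nonneg (α := ℝ) k])),
    ENNReal.toReal_ofReal (div_nonneg (sub_nonneg.2 (log_le_log (by positivity) (by linarith)))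
      hl.le), gaussProb, ← log_div (by positivity) (by positivity)]
  congr 2
  field_simp
  ring

theorem ae_real_of_gauss {P : ℝ → Prop} (h : ∀ᵐ y ∂gaussMeasure, P y) :
    ∀ᵐ x : ℝ, Irrational x ∧ P (Int.fract x) := by
  have h' : ∀ᵐ y : ℝ, y ∈ Ioo (0 : ℝ) 1 → P y :=
    (ae_restrict_iff' measurableSet_Ioo).1 (absolutelyContinuous_gaussMeasure.ae_le h)
  have hn : ∀ n : ℤ, ∀ᵐ x : ℝ, x - n ∈ Ioo (0 : ℝ) 1 → P (x - n) := fun n =>
    (measurePreserving_sub_right volume (n : ℝ)).quasiMeasurePreserving.ae h'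
  filter_upwards [ae_all_iff.2 hn, countable_not_irrational.ae_notMem volume] with x hx hirr
  have hirr' : Irrational x := not_not.1 hirr
  exact ⟨hirr', hx ⌊x⌋ ⟨fract_cq_pos hirr' 0, Int.fract_lt_one x⟩⟩

theorem digit_eq_iterate {x : ℝ} (hx : Irrational x) (i : ℕ) :
    digit x (i + 1) = ⌊(gaussMap^[i] (Int.fract x))⁻¹⌋ := by
  have hmem : Int.fract x ∈ unitIrr :=
    ⟨⟨fract_cq_pos hx 0, Int.fract_lt_one x⟩, hx.sub_intCast ⌊x⌋⟩
  rw [← cq_succ_eq hmem, digit, cq_succ', cq_succ', Int.fract_fract]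

/-- **The frequency of a digit.** -/
theorem ae_digit_frequency (k : ℕ) : ∀ᵐ x : ℝ, Irrational x ∧
    Tendsto (fun N : ℕ => (((Finset.range N).filter fun i =>
      digit x (i + 1) = (k : ℤ) + 1).card : ℝ) / N) atTop (𝓝 (gaussProb k)) := by
  classical
  have h := tendsto_average_ergodic ergodic_gaussMap
    ((integrable_const (1 : ℝ)).indicator (measurableSet_digitSet k))
  rw [integral_indicator_const _ (measurableSet_digitSet k), smul_eq_mul, mul_one,
    gaussMeasureReal_digitSet] at h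
  filter_upwards [ae_real_of_gauss h] with x ⟨hx, hlim⟩
  refine ⟨hx, hlim.congr fun N => ?_⟩
  rw [birkhoffAverage, smul_eq_mul, birkhoffSum, inv_mul_eq_div, Finset.card_filter, Nat.cast_sum]
  congr 1
  refine Finset.sum_congr rfl fun i _ => ?_
  rw [Set.indicator_apply]
  simp only [digitSet, Set.mem_ofPred_eq, digit_eq_iterate hx]
  split_ifs <;> simp

theorem integrable_log_digit : Integrable (fun x : ℝ => log (⌊x⁻¹⌋ : ℝ)) gaussMeasure := by
  have hl := log_pos one_lt_two
  have hmeas : Measurable fun x : ℝ => log (⌊x⁻¹⌋ : ℝ) :=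
    measurable_log.comp (measurable_from_top.comp (Int.measurable_floor.comp measurable_inv))
  have hI : IntegrableOn (fun x : ℝ => 2 * x ^ (-(1 / 2) : ℝ)) (Ioo (0 : ℝ) 1) :=
    ((intervalIntegrable_iff_integrableOn_Ioo_of_le zero_le_one).1
      (intervalIntegral.intervalIntegrable_rpow' (by norm_num))).const_mul 2
  have hvol : Integrable (fun x : ℝ => log (⌊x⁻¹⌋ : ℝ)) (volume.restrict (Ioo (0 : ℝ) 1)) := by
    refine hI.mono' hmeas.aestronglyMeasurable ?_
    filter_upwards [ae_restrict_mem measurableSet_Ioo] with x hx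
    have hone : (1 : ℝ) ≤ x⁻¹ := ((one_lt_inv₀ hx.1).2 hx.2).le
    have hfl : (1 : ℝ) ≤ (⌊x⁻¹⌋ : ℝ) := by
      exact_mod_cast Int.le_floor.2 (by exact_mod_cast hone)
    rw [Real.norm_eq_abs, abs_of_nonneg (log_nonneg hfl)]
    refine (log_le_log (by linarith) (Int.floor_le x⁻¹)).trans ?_
    refine (Real.log_le_rpow_div (inv_pos.2 hx.1).le (by norm_num : (0 : ℝ) < 1 / 2)).trans_eq ?_
    rw [Real.inv_rpow hx.1.le, ← Real.rpow_neg hx.1.le]
    ring
  refine hvol.of_measure_le_smul (c := ENNReal.ofReal (log 2)⁻¹) ENNReal.ofReal_ne_top ?_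
  rw [gaussMeasure, ← withDensity_const]
  refine withDensity_mono ?_
  filter_upwards [ae_restrict_mem measurableSet_Ioo] with x hx
  exact ENNReal.ofReal_le_ofReal (inv_anti₀ hl (le_mul_of_one_le_right hl.le (by linarith [hx.1])))

theorem hasSum_log_digit : HasSum (fun k : ℕ => log ((k : ℝ) + 1) * gaussProb k)
    (∫ x, log (⌊x⁻¹⌋ : ℝ) ∂gaussMeasure) := by
  have hdisj : Pairwise (Function.onFun Disjoint digitSet) := fun i j hij =>
    Set.disjoint_left.2 fun x hi hj => hij (by
      have := hi.symm.trans hj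
      omega)
  have h := hasSum_integral_iUnion (μ := gaussMeasure) measurableSet_digitSet hdisj
    integrable_log_digit.integrableOn
  have hall : (⋃ k, digitSet k) =ᵐ[gaussMeasure] (univ : Set ℝ) := by
    filter_upwards [ae_gaussMeasure_mem] with x hx
    refine propext ⟨fun _ => trivial, fun _ => mem_iUnion.2 ⟨(⌊x⁻¹⌋ - 1).toNat, ?_⟩⟩
    have : 1 ≤ ⌊x⁻¹⌋ := Int.le_floor.2 (by exact_mod_cast ((one_lt_inv₀ hx.1).2 hx.2).le)
    change ⌊x⁻¹⌋ = _
    omega
  rw [setIntegral_congr_set hall, setIntegral_univ] at h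
  refine h.congr_fun fun k => ?_
  have hfun : Set.EqOn (fun x : ℝ => log (⌊x⁻¹⌋ : ℝ)) (fun _ => log ((k : ℝ) + 1)) (digitSet k) :=
    fun x hx => by
      simp only [digitSet, Set.mem_ofPred_eq] at hx
      simp only [hx]
      push_cast
      rfl
  rw [setIntegral_congr_fun (measurableSet_digitSet k) hfun, setIntegral_const, smul_eq_mul,
    gaussMeasureReal_digitSet, mul_comm]

/-- **Khinchin's constant.** -/
def khinchinConstant : ℝ := exp (∑' k : ℕ, log ((k : ℝ) + 1) * gaussProb k)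

theorem hasProd_khinchinConstant : HasProd (fun k : ℕ =>
    (1 + 1 / (((k : ℝ) + 1) * ((k : ℝ) + 3))) ^ (log ((k : ℝ) + 1) / log 2)) khinchinConstant := by
  have h := hasSum_log_digit.summable.hasSum.rexp
  refine h.congr_fun fun k => ?_
  rw [Function.comp_apply, rpow_def_of_pos (by positivity), gaussProb]
  congr 1
  ring

/-- **Khinchin's theorem.** -/
theorem ae_geometric_mean : ∀ᵐ x : ℝ, Irrational x ∧
    Tendsto (fun n : ℕ => (∏ i ∈ Finset.range n, (digit x (i + 1) : ℝ)) ^ (1 / (n : ℝ))) atTop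
      (𝓝 khinchinConstant) := by
  have h := tendsto_average_ergodic ergodic_gaussMap integrable_log_digit
  rw [← hasSum_log_digit.tsum_eq] at h
  filter_upwards [ae_real_of_gauss h] with x ⟨hx, hlim⟩
  refine ⟨hx, ((continuous_exp.tendsto _).comp hlim).congr' ?_⟩
  filter_upwards [eventually_ne_atTop 0] with n hn
  have hpos : ∀ i, (0 : ℝ) < digit x (i + 1) := fun i => by exact_mod_cast one_le_digit hx i
  rw [Function.comp_apply, rpow_def_of_pos (Finset.prod_pos fun i _ => hpos i),
    log_prod fun i _ => (hpos i).ne', birkhoffAverage, birkhoffSum, smul_eq_mul, one_div, mul_comm]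
  simp only [digit_eq_iterate hx]

end FA.PointwiseErgodic

end
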