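import Fermat.Agent.PointwiseErgodic.Khinchin
import Fermat.Agent.PeriodicFractions.SquareRoot
import Mathlib.Analysis.SpecialFunctions.Log.NegMulLog
import Mathlib.NumberTheory.ZetaValues

/-!
# Lévy's constant

The product of the first `n` points of the orbit is `|x q - p|`, within a factor two of `1 / q'`
for the next denominator, and `- ∫ log x dμ = π ^ 2 / (12 log 2)` by the series of `1 / (1 + x)`.
-/

set_option autoImplicit false

noncomputable section

open MeasureTheory Filter Topology Set Real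
open FA.PeriodicFractions

namespace FA.PointwiseErgodic

theorem hasSum_alternating_zeta_two :
    HasSum (fun k : ℕ => (-1 : ℝ) ^ k / ((k : ℝ) + 1) ^ 2) (π ^ 2 / 12) := by
  have hall : HasSum (fun k : ℕ => 1 / ((k : ℝ) + 1) ^ 2) (π ^ 2 / 6) := by
    have h := (hasSum_nat_add_iff' (f := fun n : ℕ => (1 : ℝ) / (n : ℝ) ^ 2) 1).2 hasSum_zeta_two
    simpa using h
  have hinj : Function.Injective fun j : ℕ => 2 * j + 1 := fun a b h => by simpa using h
  have hodd : HasSum (fun k : ℕ => if Odd k then 1 / ((k : ℝ) + 1) ^ 2 else 0) (π ^ 2 / 24) := by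
    refine (hinj.hasSum_iff fun k hk => ?_).1 ?_
    · rw [if_neg]
      rintro ⟨j, rfl⟩
      exact hk ⟨j, rfl⟩
    · rw [show π ^ 2 / 24 = 1 / 4 * (π ^ 2 / 6) by ring]
      refine (hall.mul_left (1 / 4)).congr_fun fun j => ?_
      simp only [Function.comp_apply, if_pos (odd_two_mul_add_one j)]
      push_cast
      field_simp
      ring
  rw [show π ^ 2 / 12 = π ^ 2 / 6 - 2 * (π ^ 2 / 24) by ring]
  refine (hall.sub (hodd.mul_left 2)).congr_fun fun k => ?_
  rcases Nat.even_or_odd k with h | h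
  · simp [h.neg_one_pow, Nat.not_odd_iff_even.2 h]
  · rw [h.neg_one_pow, if_pos h]
    ring

theorem intervalIntegrable_pow_mul_log (k : ℕ) (a b : ℝ) :
    IntervalIntegrable (fun x => x ^ k * -log x) volume a b :=
  intervalIntegral.intervalIntegrable_log'.neg.continuousOn_mul (continuous_pow k).continuousOn

theorem integral_pow_mul_log (k : ℕ) :
    ∫ x in (0 : ℝ)..1, x ^ k * -log x = 1 / ((k : ℝ) + 1) ^ 2 := by
  have hk : (k : ℝ) + 1 ≠ 0 := by positivity
  rw [intervalIntegral.integral_eq_sub_of_hasDerivAt_of_le zero_le_one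
    (f := fun x => x ^ (k + 1) / ((k : ℝ) + 1) ^ 2 - x ^ k * (x * log x) / ((k : ℝ) + 1))
    ?_ (fun x hx => ?_) (intervalIntegrable_pow_mul_log k 0 1)]
  · simp
  · exact ((continuous_pow (k + 1)).div_const _ |>.sub
      (((continuous_pow k).mul continuous_mul_log).div_const _)).continuousOn
  · have h1 := ((hasDerivAt_id x).pow (k + 1)).div_const (((k : ℝ) + 1) ^ 2)
    have h2 := (((hasDerivAt_id x).pow (k + 1)).mul (hasDerivAt_log hx.1.ne')).div_const
      ((k : ℝ) + 1)
    have heq : (fun x => x ^ (k + 1) / ((k : ℝ) + 1) ^ 2 - x ^ k * (x * log x) / ((k : ℝ) + 1)) =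
        fun x => x ^ (k + 1) / ((k : ℝ) + 1) ^ 2 - x ^ (k + 1) * log x / ((k : ℝ) + 1) := by
      funext y
      ring
    rw [heq]
    refine (h1.sub h2).congr_deriv ?_
    simp only [id_eq, Pi.pow_apply, Nat.cast_add, Nat.cast_one, Nat.add_sub_cancel, mul_one]
    have := hx.1.ne'
    field_simp
    ring

theorem integral_log_div_one_add :
    ∫ x in Ioo (0 : ℝ) 1, -log x / (1 + x) = π ^ 2 / 12 := by
  have hF : ∀ k : ℕ, Integrable (fun x : ℝ => (-1) ^ k * (x ^ k * -log x))
      (volume.restrict (Ioo (0 : ℝ) 1)) := fun k =>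
    (((intervalIntegrable_iff_integrableOn_Ioo_of_le zero_le_one).1
      (intervalIntegrable_pow_mul_log k 0 1)).const_mul _)
  have hval : ∀ k : ℕ, ∫ x in Ioo (0 : ℝ) 1, x ^ k * -log x = 1 / ((k : ℝ) + 1) ^ 2 := fun k => by
    rw [← integral_Ioc_eq_integral_Ioo, ← intervalIntegral.integral_of_le zero_le_one,
      integral_pow_mul_log]
  have hnorm : ∀ k : ℕ, ∫ x in Ioo (0 : ℝ) 1, ‖(-1) ^ k * (x ^ k * -log x)‖ =
      1 / ((k : ℝ) + 1) ^ 2 := fun k => by
    rw [← hval k]
    refine setIntegral_congr_fun measurableSet_Ioo fun x hx => ?_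
    have : 0 ≤ x ^ k * -log x :=
      mul_nonneg (pow_nonneg hx.1.le k) (neg_nonneg.2 (log_nonpos hx.1.le hx.2.le))
    simp only [norm_mul, norm_pow, norm_neg, norm_one, one_pow, one_mul]
    rw [← norm_pow, ← norm_neg (log x), ← norm_mul, Real.norm_of_nonneg this]
  have hsum : Summable fun k : ℕ => ∫ x in Ioo (0 : ℝ) 1, ‖(-1) ^ k * (x ^ k * -log x)‖ := by
    simp only [hnorm]
    have h := (hasSum_nat_add_iff' (f := fun n : ℕ => (1 : ℝ) / (n : ℝ) ^ 2) 1).2 hasSum_zeta_two
    simpa using h.summable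
  have h := hasSum_integral_of_summable_integral_norm hF hsum
  have hptw : Set.EqOn (fun x : ℝ => ∑' k : ℕ, (-1) ^ k * (x ^ k * -log x))
      (fun x => -log x / (1 + x)) (Ioo (0 : ℝ) 1) := fun x hx => by
    have hg := (hasSum_geometric_of_abs_lt_one (r := -x)
      (by rw [abs_neg, abs_of_pos hx.1]; exact hx.2)).mul_right (-log x)
    simp only [sub_neg_eq_add, inv_mul_eq_div] at hg
    refine (tsum_congr fun k => ?_).trans hg.tsum_eq
    rw [neg_pow x k, mul_assoc]
  rw [setIntegral_congr_fun measurableSet_Ioo hptw] at h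
  refine h.unique (hasSum_alternating_zeta_two.congr_fun fun k => ?_)
  rw [integral_const_mul, hval, mul_one_div]

theorem integrable_log : Integrable Real.log gaussMeasure := by
  have hl := log_pos one_lt_two
  refine (((intervalIntegrable_iff_integrableOn_Ioo_of_le zero_le_one).1
    intervalIntegral.intervalIntegrable_log') :
      Integrable log (volume.restrict (Ioo (0 : ℝ) 1))).of_measure_le_smul
    (c := ENNReal.ofReal (log 2)⁻¹) ENNReal.ofReal_ne_top ?_
  rw [gaussMeasure, ← withDensity_const]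
  refine withDensity_mono ?_
  filter_upwards [ae_restrict_mem measurableSet_Ioo] with x hx
  exact ENNReal.ofReal_le_ofReal (inv_anti₀ hl (le_mul_of_one_le_right hl.le (by linarith [hx.1])))

/-- **The integral.** -/
theorem integral_log : ∫ x, log x ∂gaussMeasure = -(π ^ 2 / (12 * log 2)) := by
  have hl := log_pos one_lt_two
  rw [gaussMeasure, integral_withDensity_eq_integral_toReal_smul
    (by unfold gaussDensity; fun_prop) (Eventually.of_forall fun x => ENNReal.ofReal_lt_top)]
  have hcongr : Set.EqOn (fun x : ℝ => (ENNReal.ofReal (gaussDensity x)).toReal • log x)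
      (fun x => -(1 / log 2) * (-log x / (1 + x))) (Ioo (0 : ℝ) 1) := fun x hx => by
    have hx1 : 0 < 1 + x := by linarith [hx.1]
    have hpos : 0 ≤ gaussDensity x := (inv_pos.2 (mul_pos hl hx1)).le
    simp only [smul_eq_mul]
    rw [ENNReal.toReal_ofReal hpos, gaussDensity]
    field_simp
  rw [setIntegral_congr_fun measurableSet_Ioo hcongr, integral_const_mul, integral_log_div_one_add]
  field_simp

/-- **The orbit product.** -/
theorem prod_orbit {x : ℝ} (hx : Irrational x) : ∀ n : ℕ,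
    |x * (contin x n).2.2.1 - (contin x n).1| =
      ∏ i ∈ Finset.range n, gaussMap^[i] (Int.fract x) := by
  intro n
  induction n with
  | zero => simp [contin]
  | succ n ih =>
    have hmem : Int.fract x ∈ unitIrr :=
      ⟨⟨fract_cq_pos hx 0, Int.fract_lt_one x⟩, hx.sub_intCast ⌊x⌋⟩
    obtain ⟨p, p', q, q', he, hrel, -, -, -⟩ := contin_spec hx (n + 1)
    have hu : cq x (n + 1) = (gaussMap^[n] (Int.fract x))⁻¹ := by
      rw [← cq_succ_eq hmem, cq_succ', cq_succ', Int.fract_fract]
    have hu0 : 0 < cq x (n + 1) := zero_lt_one.trans (one_lt_cq hx n)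
    have hq' : (contin x (n + 1)).2.1 = (contin x n).1 ∧
        (contin x (n + 1)).2.2.2 = (contin x n).2.2.1 := ⟨rfl, rfl⟩
    rw [he] at hq' ⊢
    simp only at hq' ⊢
    have hstep : |x * q' - p'| = cq x (n + 1) * |x * q - p| := by
      rw [show cq x (n + 1) * |x * q - p| = |cq x (n + 1) * (x * q - p)| by
        rw [abs_mul, abs_of_pos hu0], ← abs_neg]
      congr 1
      linear_combination -hrel
    rw [hq'.1, hq'.2, ih] at hstep
    rw [Finset.prod_range_succ, hstep, hu]
    have := (iterate_mem_unitIrr hmem n).1.1.ne'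
    field_simp

/-- **The orbit product and the next denominator.** -/
theorem prod_orbit_bounds {x : ℝ} (hx : Irrational x) (n : ℕ) :
    1 / (2 * ((contin x (n + 1)).2.2.1 : ℝ)) ≤ ∏ i ∈ Finset.range n, gaussMap^[i] (Int.fract x) ∧
      ∏ i ∈ Finset.range n, gaussMap^[i] (Int.fract x) ≤ 1 / ((contin x (n + 1)).2.2.1 : ℝ) := by
  obtain ⟨p, p', q, q', he, hrel, hdet, hq', hq⟩ := contin_spec hx (n + 1)
  obtain ⟨hq0, hqq⟩ := hq.resolve_left n.succ_ne_zero
  have hu := one_lt_cq hx n
  have h1 : (0 : ℝ) < q := by exact_mod_cast hq0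
  have h2 : (0 : ℝ) ≤ q' := by exact_mod_cast hq'
  have h3 : (q' : ℝ) ≤ q := by exact_mod_cast hqq
  have hdet' : |(p : ℝ) * q' - p' * q| = 1 := by exact_mod_cast hdet
  have hden : 0 < (q : ℝ) * cq x (n + 1) + q' := by nlinarith
  have hprev : ∏ i ∈ Finset.range n, gaussMap^[i] (Int.fract x) = |x * q' - p'| := by
    rw [← prod_orbit hx n]
    have hq' : (contin x (n + 1)).2.1 = (contin x n).1 ∧
        (contin x (n + 1)).2.2.2 = (contin x n).2.2.1 := ⟨rfl, rfl⟩
    rw [he] at hq'
    simp only at hq'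
    rw [hq'.1, hq'.2]
  have hval : |x * q' - p'| * ((q : ℝ) * cq x (n + 1) + q') = cq x (n + 1) := by
    rw [show |x * q' - p'| * ((q : ℝ) * cq x (n + 1) + q') =
        |(x * q' - p') * ((q : ℝ) * cq x (n + 1) + q')| by rw [abs_mul, abs_of_pos hden],
      show (x * q' - p') * ((q : ℝ) * cq x (n + 1) + q') =
        cq x (n + 1) * ((p : ℝ) * q' - p' * q) by linear_combination (q' : ℝ) * hrel,
      abs_mul, hdet', mul_one, abs_of_pos (zero_lt_one.trans hu)]
  rw [hprev, he]
  simp only
  have hA := abs_nonneg (x * q' - p')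
  rw [div_le_iff₀ (by linarith), le_div_iff₀ h1]
  constructor
  · by_contra! hlt
    nlinarith [mul_le_mul_of_nonneg_left h3 hA,
      mul_lt_mul_of_pos_right hlt (zero_lt_one.trans hu), mul_le_mul_of_nonneg_left hu.le
        (mul_nonneg hA h1.le)]
  · nlinarith [mul_nonneg hA h2]

/-- **Lévy's theorem.** -/
theorem ae_levy : ∀ᵐ x : ℝ, Irrational x ∧
    Tendsto (fun n : ℕ => log ((contin x (n + 1)).2.2.1 : ℝ) / n) atTop
      (𝓝 (π ^ 2 / (12 * log 2))) ∧
    Tendsto (fun n : ℕ => log |x - (contin x (n + 1)).1 / (contin x (n + 1)).2.2.1| / n) atTop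
      (𝓝 (-(π ^ 2 / (6 * log 2)))) := by
  have h := tendsto_average_ergodic ergodic_gaussMap integrable_log
  rw [integral_log] at h
  filter_upwards [ae_real_of_gauss h] with x ⟨hx, hlim⟩
  have hmem : Int.fract x ∈ unitIrr :=
    ⟨⟨fract_cq_pos hx 0, Int.fract_lt_one x⟩, hx.sub_intCast ⌊x⌋⟩
  let P : ℕ → ℝ := fun n => ∏ i ∈ Finset.range n, gaussMap^[i] (Int.fract x)
  have hP : ∀ n, 0 < P n := fun n =>
    Finset.prod_pos fun i _ => (iterate_mem_unitIrr hmem i).1.1
  have hlogP : Tendsto (fun n : ℕ => log (P n) / n) atTop (𝓝 (-(π ^ 2 / (12 * log 2)))) := by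
    refine hlim.congr fun n => ?_
    rw [birkhoffAverage, birkhoffSum, smul_eq_mul, inv_mul_eq_div,
      log_prod fun i _ => (iterate_mem_unitIrr hmem i).1.1.ne']
  have h2 : Tendsto (fun n : ℕ => log 2 / (n : ℝ)) atTop (𝓝 0) :=
    tendsto_const_div_atTop_nhds_zero_nat _
  have hq : ∀ n, (0 : ℝ) < (contin x (n + 1)).2.2.1 := fun n => by
    exact_mod_cast (den_bounds hx n).1
  have hL : Tendsto (fun n : ℕ => log ((contin x (n + 1)).2.2.1 : ℝ) / n) atTop
      (𝓝 (π ^ 2 / (12 * log 2))) := by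
    have hlo := hlogP.neg.sub h2
    rw [neg_neg, sub_zero] at hlo
    refine tendsto_of_tendsto_of_tendsto_of_le_of_le hlo (by simpa using hlogP.neg)
      (fun n => ?_) (fun n => ?_)
    · obtain ⟨b1, -⟩ := prod_orbit_bounds hx n
      have := log_le_log (by have := hq n; positivity) b1
      rw [one_div, log_inv, log_mul two_ne_zero (hq n).ne'] at this
      simp only
      rw [← neg_div, ← sub_div]
      exact div_le_div_of_nonneg_right (by linarith) (Nat.cast_nonneg n)
    · obtain ⟨-, b2⟩ := prod_orbit_bounds hx n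
      have := log_le_log (hP n) b2
      rw [one_div, log_inv] at this
      simp only
      rw [← neg_div]
      exact div_le_div_of_nonneg_right (by linarith) (Nat.cast_nonneg n)
  refine ⟨hx, hL, ?_⟩
  have hr : Tendsto (fun n : ℕ => ((n : ℝ) + 1) / n) atTop (𝓝 1) := by
    have := (tendsto_const_nhds (x := (1 : ℝ))).add tendsto_one_div_atTop_nhds_zero_nat
    rw [add_zero] at this
    refine this.congr' ?_
    filter_upwards [eventually_ne_atTop 0] with n hn
    field_simp
  have hP1 : Tendsto (fun n : ℕ => log (P (n + 1)) / (n : ℝ)) atTop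
      (𝓝 (-(π ^ 2 / (12 * log 2)))) := by
    have h' := (hlogP.comp (tendsto_add_atTop_nat 1)).mul hr
    rw [mul_one] at h'
    refine h'.congr' ?_
    filter_upwards [eventually_ne_atTop 0] with n hn
    simp only [Function.comp_apply, Nat.cast_add, Nat.cast_one]
    field_simp
  rw [show -(π ^ 2 / (6 * log 2)) = -(π ^ 2 / (12 * log 2)) - π ^ 2 / (12 * log 2) by ring]
  refine (hP1.sub hL).congr fun n => ?_
  have e := prod_orbit hx (n + 1)
  have hPn : (0 : ℝ) < |x * (contin x (n + 1)).2.2.1 - (contin x (n + 1)).1| := e ▸ hP (n + 1)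
  rw [← sub_div, ← log_div (hP (n + 1)).ne' (hq n).ne']
  congr 2
  simp only [P]
  rw [← e, ← abs_of_pos (hq n), ← abs_div, abs_of_pos (hq n), sub_div,
    mul_div_cancel_right₀ _ (hq n).ne']

end FA.PointwiseErgodic

end
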